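import Mathlib
import Fermat.Agent.S17.H500.Package

/-!
# S17 / tower H, FORMAL layer (helper637): leaves F-WD and F-QP

Exact statements of `Fermat/Agent/S17/H500/Package.lean` (architect helper500):

* `wd : P.InvStatement → ∃ q, P.WDStatement q`
* `qp : P.BZStatement → P.InvStatement → P.WDStatement q → QPStatement q`

Both are pure bookkeeping with the normalised pairing
`B D E = pr D E - (deg D / m) N E - (deg E / m) N D`:
`B` is symmetric, additive in each variable on disjoint divisors, and (by `InvStatement`) a class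
function up to `O(deg E + 1)`.
-/

set_option autoImplicit false

namespace Fermat.Agent.S17.H637

open Fermat.Agent.S17.H500

variable {A : Type} [AddCommGroup A] (P : PairingPackage A)

/-! ## Basic calculus of `B` -/

theorem m_pos : 0 < P.m := by
  have h1 := P.one_le_g
  have h2 := P.two_g_le_d
  have h3 := P.four_d_le_m
  omega

theorem d_add_le : P.d + 2 * P.g ≤ P.m := by
  have h3 := P.four_d_le_m
  omega

theorem two_d_add_le : 2 * P.d + 2 * P.g ≤ P.m := by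
  have h3 := P.four_d_le_m
  omega

theorem B_symm (D E : P.Dv) : P.B D E = P.B E D := by
  unfold PairingPackage.B
  rw [P.pr_symm D E]
  ring

theorem disj_add_right (D E₁ E₂ : P.Dv) :
    P.Disj D (E₁ + E₂) ↔ P.Disj D E₁ ∧ P.Disj D E₂ := by
  constructor
  · intro h
    have h' := (P.disj_add_left E₁ E₂ D).1 (P.disj_symm _ _ h)
    exact ⟨P.disj_symm _ _ h'.1, P.disj_symm _ _ h'.2⟩
  · rintro ⟨h1, h2⟩
    exact P.disj_symm _ _
      ((P.disj_add_left E₁ E₂ D).2 ⟨P.disj_symm _ _ h1, P.disj_symm _ _ h2⟩)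

theorem B_add_left (D₁ D₂ E : P.Dv) (h1 : P.Disj D₁ E) (h2 : P.Disj D₂ E) :
    P.B (D₁ + D₂) E = P.B D₁ E + P.B D₂ E := by
  unfold PairingPackage.B
  rw [P.pr_add D₁ D₂ E ((P.disj_add_left _ _ _).2 ⟨h1, h2⟩), P.N_add, map_add]
  push_cast
  ring

theorem disj_nsmul_left (n : ℕ) (D E : P.Dv) (h : P.Disj D E) : P.Disj (n • D) E := by
  induction n with
  | zero => rw [zero_nsmul]; exact P.disj_zero E
  | succ n ih => rw [succ_nsmul]; exact (P.disj_add_left _ _ _).2 ⟨ih, h⟩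

theorem B_nsmul_left (n : ℕ) (D E : P.Dv) (h : P.Disj D E) :
    P.B (n • D) E = n * P.B D E := by
  induction n with
  | zero =>
    rw [zero_nsmul]
    unfold PairingPackage.B
    have h0 : P.N (0 : P.Dv) = 0 := by
      have := P.N_add 0 0
      rw [add_zero] at this
      linarith
    have hp : P.pr (0 : P.Dv) E = 0 := by
      have := P.pr_add 0 0 E (by rw [add_zero]; exact P.disj_zero E)
      rw [add_zero] at this
      linarith
    rw [h0, hp, map_zero]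
    simp
  | succ n ih =>
    rw [succ_nsmul, B_add_left P _ _ _ (disj_nsmul_left P n D E h) h, ih]
    push_cast
    ring

/-- `InvStatement` with a nonnegative constant. -/
theorem inv_nonneg (hInv : P.InvStatement) :
    ∃ C : ℝ, 0 ≤ C ∧ ∀ D₁ D₂ E, P.deg D₁ = P.deg D₂ → P.deg D₁ + 2 * P.g ≤ P.m →
      P.cls D₁ = P.cls D₂ → P.Disj D₁ E → P.Disj D₂ E →
      |P.B D₁ E - P.B D₂ E| ≤ C * (P.deg E + 1) := by
  obtain ⟨C, hC⟩ := hInv
  refine ⟨|C|, abs_nonneg C, fun D₁ D₂ E h1 h2 h3 h4 h5 => ?_⟩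
  refine (hC D₁ D₂ E h1 h2 h3 h4 h5).trans ?_
  have : (0 : ℝ) ≤ (P.deg E : ℝ) + 1 := by positivity
  exact mul_le_mul_of_nonneg_right (le_abs_self C) this

/-! ## F-WD -/

/-- Any two pairs of good disjoint representatives of degree `d` of the same class have the same
`B` up to a constant. -/
theorem B_pair_indep (hInv : P.InvStatement) :
    ∃ C : ℝ, 0 ≤ C ∧ ∀ (D D' E E' : P.Dv), P.deg D = P.d → P.deg D' = P.d → P.deg E = P.d →
      P.deg E' = P.d → P.cls D' = P.cls D → P.cls E = P.cls D → P.cls E' = P.cls D →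
      P.Disj D D' → P.Disj E E' → |P.B D D' - P.B E E'| ≤ C := by
  obtain ⟨C, hC0, hC⟩ := inv_nonneg P hInv
  refine ⟨4 * (C * (P.d + 1)), by positivity, ?_⟩
  intro D D' E E' hD hD' hE hE' hcD' hcE hcE' hDD' hEE'
  have hdm := d_add_le P
  -- generic `G` disjoint from `E'`, then `G'` disjoint from `D + G`
  obtain ⟨G, hG, hcG, hGE', -⟩ := P.mov1 (P.cls D) E'
  obtain ⟨G', hG', hcG', hG'T, -⟩ := P.mov1 (P.cls D) (D + G)
  obtain ⟨hG'D, hG'G⟩ := (disj_add_right P _ _ _).1 hG'T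
  -- step 1: second variable `D' → G'` (with `E := D`)
  have s1 : |P.B D' D - P.B G' D| ≤ C * (P.d + 1) := by
    have := hC D' G' D (by rw [hD', hG']) (by rw [hD']; exact hdm) (by rw [hcD', hcG'])
      (P.disj_symm _ _ hDD') hG'D
    rwa [hD] at this
  -- step 2: first variable `D → G` (with `E := G'`)
  have s2 : |P.B D G' - P.B G G'| ≤ C * (P.d + 1) := by
    have := hC D G G' (by rw [hD, hG]) (by rw [hD]; exact hdm) (by rw [hcG])
      (P.disj_symm _ _ hG'D) (P.disj_symm _ _ hG'G)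
    rwa [hG'] at this
  -- step 3: second variable `G' → E'` (with `E := G`)
  have s3 : |P.B G' G - P.B E' G| ≤ C * (P.d + 1) := by
    have := hC G' E' G (by rw [hG', hE']) (by rw [hG']; exact hdm) (by rw [hcG', hcE'])
      hG'G (P.disj_symm _ _ hGE')
    rwa [hG] at this
  -- step 4: first variable `G → E` (with `E := E'`)
  have s4 : |P.B G E' - P.B E E'| ≤ C * (P.d + 1) := by
    have := hC G E E' (by rw [hG, hE]) (by rw [hG]; exact hdm) (by rw [hcG, hcE])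
      hGE' hEE'
    rwa [hE'] at this
  rw [B_symm P D' D, B_symm P G' D] at s1
  rw [B_symm P G' G, B_symm P E' G] at s3
  rw [abs_le] at s1 s2 s3 s4 ⊢
  constructor <;> linarith [s1.1, s1.2, s2.1, s2.2, s3.1, s3.2, s4.1, s4.2]

/-- **Leaf F-WD.** -/
theorem wd (hInv : P.InvStatement) : ∃ q : A → ℝ, P.WDStatement q := by
  obtain ⟨C, hC0, hC⟩ := B_pair_indep P hInv
  -- chosen representatives
  have hex : ∀ x : A, ∃ E E' : P.Dv, P.deg E = P.d ∧ P.deg E' = P.d ∧ P.cls E = x ∧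
      P.cls E' = x ∧ P.Disj E E' := by
    intro x
    obtain ⟨E, hE, hcE, -, -⟩ := P.mov1 x 0
    obtain ⟨E', hE', hcE', hE'E, -⟩ := P.mov1 x E
    exact ⟨E, E', hE, hE', hcE, hcE', P.disj_symm _ _ hE'E⟩
  choose E E' hE hE' hcE hcE' hEE' using hex
  refine ⟨fun x => -(P.B (E x) (E' x)) / 2, C / 2, ?_⟩
  intro x D D' hD hD' hcD hcD' _ _ hDD'
  have h := hC D D' (E x) (E' x) hD hD' (hE x) (hE' x) (by rw [hcD', hcD])
    (by rw [hcE, hcD]) (by rw [hcE', hcD]) hDD' (hEE' x)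
  rw [abs_le] at h ⊢
  constructor <;> linarith [h.1, h.2]

/-! ## F-QP -/

/-- `B inf E` is bounded. -/
theorem B_inf_bdd (hBZ : P.BZStatement) :
    ∃ C : ℝ, 0 ≤ C ∧ ∀ E, P.Disj P.inf E → |P.B P.inf E| ≤ C * (P.deg E + 1) := by
  obtain ⟨C, hC⟩ := hBZ
  refine ⟨|C|, abs_nonneg C, fun E hE => ?_⟩
  have hm : (1 : ℝ) ≤ P.m := by exact_mod_cast m_pos P
  have h1 := hC P.one E (by rw [P.Z_one]; exact disj_nsmul_left P _ _ _ hE)
  rw [P.Z_one, B_nsmul_left P _ _ _ hE, abs_mul, Nat.abs_cast] at h1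
  have hdeg : (0 : ℝ) ≤ (P.deg E : ℝ) + 1 := by positivity
  have h2 : C * ((P.deg E : ℝ) + 1) ≤ |C| * ((P.deg E : ℝ) + 1) :=
    mul_le_mul_of_nonneg_right (le_abs_self C) hdeg
  have h3 : |P.B P.inf E| ≤ (P.m : ℝ) * |P.B P.inf E| := by
    have := abs_nonneg (P.B P.inf E)
    nlinarith
  linarith

/-- `B B0 E` is bounded for `B0` of class `0` and degree `d`. -/
theorem B_zero_bdd (hBZ : P.BZStatement) (hInv : P.InvStatement) :
    ∃ C : ℝ, 0 ≤ C ∧ ∀ B0 E, P.deg B0 = P.d → P.cls B0 = 0 → P.Disj B0 E → P.Disj P.inf E →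
      |P.B B0 E| ≤ C * (P.deg E + 1) := by
  obtain ⟨C₁, hC₁0, hC₁⟩ := inv_nonneg P hInv
  obtain ⟨C₂, hC₂0, hC₂⟩ := B_inf_bdd P hBZ
  refine ⟨C₁ + P.d * C₂, by positivity, fun B0 E hB0 hc hd hinf => ?_⟩
  have hdeg : P.deg (P.d • P.inf) = P.d := by
    rw [map_nsmul, P.deg_inf, smul_eq_mul, mul_one]
  have hcls : P.cls (P.d • P.inf) = 0 := by
    rw [map_nsmul, P.cls_inf, smul_zero]
  have h1 := hC₁ B0 (P.d • P.inf) E (by rw [hB0, hdeg]) (by rw [hB0]; exact d_add_le P)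
    (by rw [hc, hcls]) hd (disj_nsmul_left P _ _ _ hinf)
  rw [B_nsmul_left P _ _ _ hinf] at h1
  have h2 := hC₂ E hinf
  have hdeg' : (0 : ℝ) ≤ (P.deg E : ℝ) + 1 := by positivity
  have hd0 : (0 : ℝ) ≤ (P.d : ℝ) := by positivity
  have h3 : |(P.d : ℝ) * P.B P.inf E| ≤ P.d * (C₂ * ((P.deg E : ℝ) + 1)) := by
    rw [abs_mul, Nat.abs_cast]
    exact mul_le_mul_of_nonneg_left h2 hd0
  rw [abs_le] at h1 h3 ⊢
  constructor <;> nlinarith [h1.1, h1.2, h3.1, h3.2]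

/-- Quasi-additivity of `B` in the first variable along the group law:
if `cls D₃ = cls D₁ + cls D₂` (degrees `d`, auxiliary `B0` of class `0`), then
`B D₃ E = B D₁ E + B D₂ E + O(deg E + 1)`. -/
theorem B_class_add (hBZ : P.BZStatement) (hInv : P.InvStatement) :
    ∃ C : ℝ, 0 ≤ C ∧ ∀ D₁ D₂ D₃ B0 E, P.deg D₁ = P.d → P.deg D₂ = P.d → P.deg D₃ = P.d →
      P.deg B0 = P.d → P.cls B0 = 0 → P.cls D₃ = P.cls D₁ + P.cls D₂ →
      P.Disj D₁ E → P.Disj D₂ E → P.Disj D₃ E → P.Disj B0 E → P.Disj P.inf E →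
      |P.B D₃ E - P.B D₁ E - P.B D₂ E| ≤ C * (P.deg E + 1) := by
  obtain ⟨C₁, hC₁0, hC₁⟩ := inv_nonneg P hInv
  obtain ⟨C₂, hC₂0, hC₂⟩ := B_zero_bdd P hBZ hInv
  refine ⟨C₁ + C₂, by positivity, ?_⟩
  intro D₁ D₂ D₃ B0 E h1 h2 h3 h0 hc0 hc d1 d2 d3 d0 dinf
  have hdm := two_d_add_le P
  have hA := hC₁ (D₃ + B0) (D₁ + D₂) E (by rw [map_add, map_add, h1, h2, h3, h0])
    (by rw [map_add, h3, h0]; omega) (by rw [map_add, map_add, hc0, hc, add_zero])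
    ((P.disj_add_left _ _ _).2 ⟨d3, d0⟩) ((P.disj_add_left _ _ _).2 ⟨d1, d2⟩)
  rw [B_add_left P _ _ _ d3 d0, B_add_left P _ _ _ d1 d2] at hA
  have hB := hC₂ B0 E h0 hc0 d0 dinf
  rw [abs_le] at hA hB ⊢
  constructor <;> nlinarith [hA.1, hA.2, hB.1, hB.2]

/-- **Leaf F-QP**: the quasi-parallelogram law. -/
theorem qp (hBZ : P.BZStatement) (hInv : P.InvStatement) (q : A → ℝ) (hq : P.WDStatement q) :
    QPStatement q := by
  obtain ⟨C, hC0, hC⟩ := B_class_add P hBZ hInv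
  obtain ⟨Cq, hCq⟩ := hq
  refine ⟨3 * (C * (P.d + 1)) + 6 * |Cq|, ?_⟩
  intro x y
  -- unprimed representatives
  obtain ⟨Dx, hDx, cDx, -, gDx⟩ := P.mov1 x 0
  obtain ⟨Dy, hDy, cDy, -, gDy⟩ := P.mov1 y 0
  obtain ⟨Ds, hDs, cDs, -, gDs⟩ := P.mov1 (x + y) 0
  obtain ⟨Dm, hDm, cDm, -, gDm⟩ := P.mov1 (x - y) 0
  obtain ⟨B0, hB0, cB0, -, gB0⟩ := P.mov1 (0 : A) 0
  -- primed representatives, disjoint from all unprimed ones
  set T : P.Dv := Dx + Dy + Ds + Dm + B0 with hT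
  have hsplit : ∀ D : P.Dv, P.Disj D T →
      P.Disj D Dx ∧ P.Disj D Dy ∧ P.Disj D Ds ∧ P.Disj D Dm ∧ P.Disj D B0 := by
    intro D h
    rw [hT] at h
    obtain ⟨h, h5⟩ := (disj_add_right P _ _ _).1 h
    obtain ⟨h, h4⟩ := (disj_add_right P _ _ _).1 h
    obtain ⟨h, h3⟩ := (disj_add_right P _ _ _).1 h
    obtain ⟨h1, h2⟩ := (disj_add_right P _ _ _).1 h
    exact ⟨h1, h2, h3, h4, h5⟩
  obtain ⟨Dx', hDx', cDx', tDx', gDx'⟩ := P.mov1 x T
  obtain ⟨Dy', hDy', cDy', tDy', gDy'⟩ := P.mov1 y T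
  obtain ⟨Ds', hDs', cDs', tDs', gDs'⟩ := P.mov1 (x + y) T
  obtain ⟨Dm', hDm', cDm', tDm', gDm'⟩ := P.mov1 (x - y) T
  obtain ⟨B0', hB0', cB0', tB0', gB0'⟩ := P.mov1 (0 : A) T
  obtain ⟨x'x, x'y, x's, x'm, x'0⟩ := hsplit Dx' tDx'
  obtain ⟨y'x, y'y, y's, y'm, y'0⟩ := hsplit Dy' tDy'
  obtain ⟨s'x, s'y, s's, s'm, s'0⟩ := hsplit Ds' tDs'
  obtain ⟨m'x, m'y, m's, m'm, m'0⟩ := hsplit Dm' tDm'
  obtain ⟨b'x, b'y, b's, b'm, b'0⟩ := hsplit B0' tB0'
  have sym := P.disj_symm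
  have inf_of : ∀ D, P.Good D → P.Disj P.inf D := fun D h => sym _ _ (P.good_disj_inf D h)
  -- the four values of `q`
  have qx := hCq x Dx Dx' hDx hDx' cDx cDx' gDx gDx' (sym _ _ x'x)
  have qy := hCq y Dy Dy' hDy hDy' cDy cDy' gDy gDy' (sym _ _ y'y)
  have qs := hCq (x + y) Ds Ds' hDs hDs' cDs cDs' gDs gDs' (sym _ _ s's)
  have qm := hCq (x - y) Dm Dm' hDm hDm' cDm cDm' gDm gDm' (sym _ _ m'm)
  -- expansion of `B Ds Ds'`
  have e1 := hC Dx Dy Ds B0 Ds' hDx hDy hDs hB0 cB0 (by rw [cDs, cDx, cDy])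
    (sym _ _ s'x) (sym _ _ s'y) (sym _ _ s's) (sym _ _ s'0) (inf_of _ gDs')
  have e2 := hC Dx' Dy' Ds' B0' Dx hDx' hDy' hDs' hB0' cB0' (by rw [cDs', cDx', cDy'])
    x'x y'x s'x b'x (inf_of _ gDx)
  have e3 := hC Dx' Dy' Ds' B0' Dy hDx' hDy' hDs' hB0' cB0' (by rw [cDs', cDx', cDy'])
    x'y y'y s'y b'y (inf_of _ gDy)
  -- expansion of `B Dm Dm'` (`Dx ~ Dm + Dy`)
  have e4 := hC Dm Dy Dx B0 Dm' hDm hDy hDx hB0 cB0 (by rw [cDx, cDm, cDy]; abel)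
    (sym _ _ m'm) (sym _ _ m'y) (sym _ _ m'x) (sym _ _ m'0) (inf_of _ gDm')
  have e5 := hC Dm' Dy' Dx' B0' Dx hDm' hDy' hDx' hB0' cB0' (by rw [cDx', cDm', cDy']; abel)
    m'x y'x x'x b'x (inf_of _ gDx)
  have e6 := hC Dm' Dy' Dx' B0' Dy hDm' hDy' hDx' hB0' cB0' (by rw [cDx', cDm', cDy']; abel)
    m'y y'y x'y b'y (inf_of _ gDy)
  rw [hDs'] at e1
  rw [hDx] at e2 e5
  rw [hDy] at e3 e6
  rw [hDm'] at e4
  rw [B_symm P Dx Ds', B_symm P Dy Ds'] at e1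
  rw [B_symm P Dx Dm', B_symm P Dy Dm'] at e4
  rw [B_symm P Dx Dx'] at qx
  rw [B_symm P Dy Dy'] at qy
  have hq' : Cq ≤ |Cq| := le_abs_self Cq
  rw [abs_le] at qx qy qs qm e1 e2 e3 e4 e5 e6 ⊢
  constructor <;>
    linarith [qx.1, qx.2, qy.1, qy.2, qs.1, qs.2, qm.1, qm.2, e1.1, e1.2, e2.1, e2.2,
      e3.1, e3.2, e4.1, e4.2, e5.1, e5.2, e6.1, e6.2]

end Fermat.Agent.S17.H637
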